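/-
Lib/GoodFlat/Transfer (MR6, piece TRANSFER): `IsFlatAt p` of the `p`-adic Tate module of an
elliptic curve over `ℚ` follows from flatness of the finite Galois modules `E[p^n](ℚ̄)`.
-/
import Mathlib
import Fermat.Agent.Lib.TateModule.Rep
import Fermat.Agent.Lib.FlatMod.Closure

set_option autoImplicit false
set_option linter.unusedSectionVars false
set_option linter.style.haveILetI false

noncomputable section

namespace Fermat.Agent.GoodFlat

open WeierstrassCurve WeierstrassCurve.Affine WeierstrassCurve.Affine.Point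
open scoped WeierstrassCurve.Affine
open Fermat.Agent.TateModule Fermat.Agent.FlatMod IsLocalRing

local notation "Qbar" => AlgebraicClosure ℚ
local notation "GQ" => (AlgebraicClosure ℚ ≃ₐ[ℚ] AlgebraicClosure ℚ)

variable (E : WeierstrassCurve ℚ) [DecidableEq Qbar]

/-- The Galois action on `E[m](ℚ̄)`, carrier `Submodule.torsionBy ℤ E(ℚ̄) m`. -/
def torsAct (m : ℤ) (σ : GQ) (P : Submodule.torsionBy ℤ (E⁄Qbar).Point m) :
    Submodule.torsionBy ℤ (E⁄Qbar).Point m :=
  ⟨σ • P.1, by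
    have h := P.2
    rw [Submodule.mem_torsionBy_iff] at h ⊢
    rw [← algEquiv_smul_zsmul, h, smul_zero]⟩

@[simp] theorem torsAct_coe (m : ℤ) (σ : GQ) (P : Submodule.torsionBy ℤ (E⁄Qbar).Point m) :
    ((torsAct E m σ P : Submodule.torsionBy ℤ (E⁄Qbar).Point m) : (E⁄Qbar).Point) = σ • P.1 :=
  rfl

/-- On `E[n]`, `n : ℕ`, `torsAct` is the Prelude's Galois action. -/
theorem torsAct_eq_smul (n : ℕ) (σ : GQ) (P : Submodule.torsionBy ℤ (E⁄Qbar).Point (n : ℤ)) :
    torsAct E (n : ℤ) σ P = σ • P :=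
  rfl

variable (p : ℕ) [hp : Fact p.Prime]

/-- An ideal of `ℤ_[p]` with finite quotient is generated by a power of `p`. -/
theorem padicInt_ideal_eq_span_pow (I : Ideal ℤ_[p]) (hI : Finite (ℤ_[p] ⧸ I)) :
    ∃ n : ℕ, I = Ideal.span {((p : ℤ_[p]) ^ n)} := by
  have hne : I ≠ ⊥ := by
    rintro rfl
    haveI : Finite ℤ_[p] :=
      Finite.of_injective (Ideal.Quotient.mk (⊥ : Ideal ℤ_[p]))
        ((RingHom.injective_iff_ker_eq_bot _).2 (by rw [Ideal.mk_ker]))
    exact not_finite ℤ_[p]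
  exact IsDiscreteValuationRing.ideal_eq_span_pow_irreducible hne PadicInt.irreducible_p

variable {p} in
/-- Membership in `span {p ^ n} • ⊤` of a module of compatible sequences. -/
theorem mem_span_pow_smul_top_iff {J : Type*} [AddCommGroup J] (n : ℕ) (x : tateSeq p J) :
    x ∈ (Ideal.span {((p : ℤ_[p]) ^ n)} : Ideal ℤ_[p]) • (⊤ : Submodule ℤ_[p] (tateSeq p J)) ↔
      tateRed p J n x = 0 := by
  rw [← maximalIdeal_pow_eq_span, mem_maximalIdeal_pow_smul_top_iff, tateRed_eq_zero_iff]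
  constructor
  · rintro ⟨y, rfl⟩
    exact tateSeq_p_pow_smul_apply_self y n
  · intro h
    obtain ⟨y, hy⟩ := tateSeq_exists_eq_pow_smul x h
    exact ⟨y, hy⟩

/-- **(TRANSFER)** The Tate module of `E` is flat at `p` as soon as all the finite Galois modules
`E[p^n](ℚ̄)` are flat Galois modules. -/
theorem tateRep_isFlatAt_of_torsion (hΔ : E.Δ ≠ 0)
    (h : ∀ n : ℕ, IsFlatGaloisModule p
      (Submodule.torsionBy ℤ (E⁄Qbar).Point ((p ^ n : ℕ) : ℤ)) (torsAct E ((p ^ n : ℕ) : ℤ))) :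
    (tateRep E p hΔ).IsFlatAt p := by
  rw [isFlatAt_iff]
  refine ⟨?_, fun I hI => ?_⟩
  · exact Finite.of_equiv _ (PadicInt.residueField (p := p)).symm.toEquiv
  · obtain ⟨n, rfl⟩ := padicInt_ideal_eq_span_pow p I hI
    set S : Submodule ℤ_[p] (tateRep E p hΔ).V :=
      (Ideal.span {((p : ℤ_[p]) ^ n)} : Ideal ℤ_[p]) • (⊤ : Submodule ℤ_[p] (tateRep E p hΔ).V)
      with hS
    -- the map induced by `tateRed` on the quotient
    let f : (tateRep E p hΔ).V →+ Submodule.torsionBy ℤ (E⁄Qbar).Point ((p ^ n : ℕ) : ℤ) :=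
      tateRed p (E⁄Qbar).Point n
    have hf : Function.Surjective f := tateRed_surjective (p_divisible p hΔ) n
    have hker : ∀ x, x ∈ S ↔ f x = 0 := fun x => mem_span_pow_smul_top_iff n x
    let g : ((tateRep E p hΔ).V ⧸ S) →+
        Submodule.torsionBy ℤ (E⁄Qbar).Point ((p ^ n : ℕ) : ℤ) :=
      QuotientAddGroup.lift S.toAddSubgroup f (fun x hx => (hker x).1 hx)
    have hg : ∀ x, g (Submodule.Quotient.mk x) = f x := fun x => rfl
    have hginj : Function.Injective g := by
      rw [injective_iff_map_eq_zero]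
      intro v hv
      obtain ⟨x, rfl⟩ := Submodule.Quotient.mk_surjective S v
      rw [hg] at hv
      exact (Submodule.Quotient.mk_eq_zero S).2 ((hker x).2 hv)
    have hgsurj : Function.Surjective g := by
      intro y
      obtain ⟨x, rfl⟩ := hf y
      exact ⟨Submodule.Quotient.mk x, hg x⟩
    let e : ((tateRep E p hΔ).V ⧸ S) ≃+
        Submodule.torsionBy ℤ (E⁄Qbar).Point ((p ^ n : ℕ) : ℤ) :=
      AddEquiv.ofBijective g ⟨hginj, hgsurj⟩
    refine (h n).of_equiv e.symm (fun σ y => ?_)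
    apply e.injective
    rw [AddEquiv.apply_symm_apply]
    obtain ⟨v, rfl⟩ := e.surjective y
    rw [AddEquiv.symm_apply_apply]
    obtain ⟨x, rfl⟩ := Submodule.Quotient.mk_surjective S v
    show torsAct E ((p ^ n : ℕ) : ℤ) σ (f x) = g ((tateRep E p hΔ).levelAction _ σ
      (Submodule.Quotient.mk x))
    have h1 : (tateRep E p hΔ).levelAction
        ((Ideal.span {((p : ℤ_[p]) ^ n)} : Ideal ℤ_[p])) σ (Submodule.Quotient.mk x) =
        Submodule.Quotient.mk ((tateRep E p hΔ).ρ σ x) := rfl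
    rw [h1, hg]
    rfl

end Fermat.Agent.GoodFlat
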